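/-
GATE-B / B10' [PHI2] (helper69), file 1: **two-valuation approximation with constants**.

For two incomparable `G_ℚ`-compatible unramified valuations `V1 V2 : GalVal N A` of `F_N` above a
place `A` of `ℚ̄` with archimedean value group (`harch`, e.g. `GH/Inst/Arch.harch`):

* `exists_isP_small` : `∀ a ≠ 0, ∃ y ≡ 1 mod 𝔪₁` with `w₂ y < w₂ a`;
* `exists_isP_isP`   : **`∀ t ≠ 0, ∃ g ≠ 0, g ≡ 1 mod 𝔪₁ ∧ g / t ≡ 1 mod 𝔪₂`**.

(The on-main `exists_approx` only gives the residue-field CRT; the uniform strong approximation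
`exists_approx_mod` needs a discrete value group.)
-/
import Fermat.Agent.GK.SS.GalSide
import Fermat.Agent.GK.MultiVal.Approx

set_option autoImplicit false

namespace Fermat.Agent.GB.B10.Phi2.Approx2

open Fermat.Agent.GJ.KumGroup Fermat.Agent.GK.SS Fermat.Agent.GK.MultiVal

/-- `ℚ̄`. -/
local notation "Qb" => AlgebraicClosure ℚ

/-! ### principal units of a valuation subring -/

section VS

variable {E : Type*} [Field E] (B : ValuationSubring E)

/-- `x` is a principal unit of `B`: `x ≡ 1 mod 𝔪_B`. -/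
def IsP (x : E) : Prop := B.valuation (x - 1) < 1

variable {B}

theorem IsP.val_eq_one {x : E} (h : IsP B x) : B.valuation x = 1 := by
  have h1 : x = 1 + (x - 1) := by ring
  rw [h1, Valuation.map_add_eq_of_lt_left _ (by rw [map_one]; exact h), map_one]

theorem IsP.ne_zero {x : E} (h : IsP B x) : x ≠ 0 := by
  intro h0
  have := h.val_eq_one
  rw [h0, map_zero] at this
  exact zero_ne_one this

theorem IsP.mem {x : E} (h : IsP B x) : x ∈ B :=
  (B.valuation_le_one_iff x).1 h.val_eq_one.le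

theorem isP_one : IsP B (1 : E) := by
  show B.valuation (1 - 1) < 1
  rw [sub_self, map_zero]
  exact zero_lt_one

theorem IsP.mul {x y : E} (hx : IsP B x) (hy : IsP B y) : IsP B (x * y) := by
  have h1 : x * y - 1 = x * (y - 1) + (x - 1) := by ring
  show B.valuation (x * y - 1) < 1
  rw [h1]
  refine Valuation.map_add_lt _ ?_ hx
  rw [map_mul, hx.val_eq_one, one_mul]
  exact hy

theorem IsP.inv {x : E} (hx : IsP B x) : IsP B x⁻¹ := by
  have h0 := hx.ne_zero
  have h1 : x⁻¹ - 1 = -(x⁻¹ * (x - 1)) := by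
    field_simp
    ring
  show B.valuation (x⁻¹ - 1) < 1
  rw [h1, Valuation.map_neg, map_mul, map_inv₀, hx.val_eq_one, inv_one, one_mul]
  exact hx

theorem IsP.div {x y : E} (hx : IsP B x) (hy : IsP B y) : IsP B (x / y) := by
  rw [div_eq_mul_inv]
  exact hx.mul hy.inv

theorem IsP.pow {x : E} (hx : IsP B x) (n : ℕ) : IsP B (x ^ n) := by
  induction n with
  | zero => rw [pow_zero]; exact isP_one
  | succ n ih => rw [pow_succ]; exact ih.mul hx

end VS

/-! ### constants in a `GalVal` -/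

section Const

variable {N : ℕ} {A : ValuationSubring Qb} (V : GalVal N A)

theorem val_const_le_iff (a : Qb) {b : Qb} (hb : b ≠ 0) :
    V.W.valuation (algebraMap Qb (FK N) a) ≤ V.W.valuation (algebraMap Qb (FK N) b) ↔
      A.valuation a ≤ A.valuation b := by
  have hb' : algebraMap Qb (FK N) b ≠ 0 :=
    (map_ne_zero_iff _ (algebraMap Qb (FK N)).injective).2 hb
  have h1 : 0 < V.W.valuation (algebraMap Qb (FK N) b) :=
    zero_lt_iff.2 ((Valuation.ne_zero_iff _).2 hb')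
  have h2 : 0 < A.valuation b := zero_lt_iff.2 ((Valuation.ne_zero_iff _).2 hb)
  rw [← div_le_one₀ h1, ← div_le_one₀ h2, ← map_div₀, ← map_div₀, ← map_div₀,
    ValuationSubring.valuation_le_one_iff, ValuationSubring.valuation_le_one_iff]
  exact V.mem_const _

theorem val_const_lt_iff {a : Qb} (ha : a ≠ 0) (b : Qb) :
    V.W.valuation (algebraMap Qb (FK N) a) < V.W.valuation (algebraMap Qb (FK N) b) ↔
      A.valuation a < A.valuation b := by
  rw [← not_le, ← not_le, val_const_le_iff V b ha]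

end Const

/-! ### the approximation lemmas -/

section Approx

variable {N : ℕ} {A : ValuationSubring Qb} (V1 V2 : GalVal N A)

theorem incomparable_pair (h12 : ¬ V1.W ≤ V2.W) (h21 : ¬ V2.W ≤ V1.W) :
    Incomparable ![V1.W, V2.W] := by
  intro i j hij
  fin_cases i <;> fin_cases j
  · exact absurd rfl hij
  · exact h12
  · exact h21
  · exact absurd rfl hij

/-- CRT for the pair: prescribed residues at both valuations. -/
theorem exists_pair (h12 : ¬ V1.W ≤ V2.W) (h21 : ¬ V2.W ≤ V1.W) {a1 a2 : FK N}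
    (h1 : a1 ∈ V1.W) (h2 : a2 ∈ V2.W) :
    ∃ x : FK N, x ∈ V1.W ∧ x ∈ V2.W ∧ V1.W.valuation (x - a1) < 1 ∧
      V2.W.valuation (x - a2) < 1 := by
  have ha : ∀ i : Fin 2, (![a1, a2] i) ∈ (![V1.W, V2.W] i) := by
    rw [Fin.forall_fin_two]
    exact ⟨h1, h2⟩
  obtain ⟨x, hxW, hxa⟩ := exists_approx (incomparable_pair V1 V2 h12 h21) ![a1, a2] ha
  exact ⟨x, (V1.W.valuation_le_one_iff x).1 (hxW 0), (V2.W.valuation_le_one_iff x).1 (hxW 1),
    hxa 0, hxa 1⟩

/-- `y ≡ 1 mod 𝔪₁` with `w₂ y` as small as we like. -/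
theorem exists_isP_small (h12 : ¬ V1.W ≤ V2.W) (h21 : ¬ V2.W ≤ V1.W)
    (harch : ∀ x y : Qb, A.valuation x < 1 → y ≠ 0 →
      ∃ n : ℕ, A.valuation x ^ n ≤ A.valuation y)
    {a : Qb} (ha : a ≠ 0) :
    ∃ y : FK N, IsP V1.W y ∧ V2.W.valuation y < V2.W.valuation (algebraMap Qb (FK N) a) := by
  obtain ⟨y0, -, -, hy1, hy2⟩ := exists_pair V1 V2 h12 h21 (a1 := 1) (a2 := 0)
    (one_mem _) (zero_mem _)
  rw [sub_zero] at hy2
  have hy1' : IsP V1.W y0 := hy1
  have hy0 : y0 ≠ 0 := hy1'.ne_zero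
  obtain ⟨c, hc0, hc1, hc2⟩ := V2.unram y0 hy0
  have hcy : V2.W.valuation (algebraMap Qb (FK N) c * y0) = 1 :=
    (vs_val_eq_one_iff V2.W).2
      ⟨mul_ne_zero ((map_ne_zero_iff _ (algebraMap Qb (FK N)).injective).2 hc0) hy0, hc1, hc2⟩
  have hc' : algebraMap Qb (FK N) c ≠ 0 :=
    (map_ne_zero_iff _ (algebraMap Qb (FK N)).injective).2 hc0
  -- `w₂ y0 = w₂ c⁻¹`
  have hval : V2.W.valuation y0 = V2.W.valuation (algebraMap Qb (FK N) c⁻¹) := by
    rw [map_inv₀, map_inv₀]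
    rw [map_mul] at hcy
    exact eq_inv_of_mul_eq_one_right hcy
  have hcinv : A.valuation c⁻¹ < 1 := by
    have h1 : V2.W.valuation (algebraMap Qb (FK N) c⁻¹) <
        V2.W.valuation (algebraMap Qb (FK N) 1) := by
      rw [← hval, map_one, map_one]; exact hy2
    have := (val_const_lt_iff V2 (inv_ne_zero hc0) 1).1 h1
    rwa [map_one] at this
  obtain ⟨n, hn⟩ := harch c⁻¹ a hcinv ha
  refine ⟨y0 ^ (n + 1), hy1'.pow _, ?_⟩
  have hle : V2.W.valuation (y0 ^ n) ≤ V2.W.valuation (algebraMap Qb (FK N) a) := by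
    rw [map_pow, hval, ← map_pow, ← map_pow]
    refine (val_const_le_iff V2 _ ha).2 ?_
    rw [map_pow]; exact hn
  have ha' : V2.W.valuation (algebraMap Qb (FK N) a) ≠ 0 :=
    (Valuation.ne_zero_iff _).2 ((map_ne_zero_iff _ (algebraMap Qb (FK N)).injective).2 ha)
  rw [pow_succ, map_mul]
  calc V2.W.valuation (y0 ^ n) * V2.W.valuation y0
      ≤ V2.W.valuation (algebraMap Qb (FK N) a) * V2.W.valuation y0 := by gcongr
    _ < V2.W.valuation (algebraMap Qb (FK N) a) * 1 :=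
        mul_lt_mul_of_pos_left hy2 (zero_lt_iff.2 ha')
    _ = V2.W.valuation (algebraMap Qb (FK N) a) := mul_one _

/-- the case `t = a · t₀`, `a ∈ A`, `t₀` a `w₂`-unit. -/
theorem exists_isP_isP_aux (h12 : ¬ V1.W ≤ V2.W) (h21 : ¬ V2.W ≤ V1.W)
    (harch : ∀ x y : Qb, A.valuation x < 1 → y ≠ 0 →
      ∃ n : ℕ, A.valuation x ^ n ≤ A.valuation y)
    {a : Qb} (ha : a ≠ 0) (haA : a ∈ A) {t0 : FK N} (ht0 : V2.W.valuation t0 = 1) :
    ∃ g : FK N, IsP V1.W g ∧ IsP V2.W (g / (algebraMap Qb (FK N) a * t0)) := by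
  have ht0m : t0 ∈ V2.W := (V2.W.valuation_le_one_iff t0).1 ht0.le
  obtain ⟨s, hs1, hs2, -, hs4⟩ := exists_pair V1 V2 h12 h21 (a1 := 0) (a2 := t0)
    (zero_mem _) ht0m
  obtain ⟨y, hy1, hy2⟩ := exists_isP_small V1 V2 h12 h21 harch ha
  set ca : FK N := algebraMap Qb (FK N) a with hca
  have hca1 : ca ∈ V1.W := (V1.mem_const a).2 haA
  have hca2 : ca ∈ V2.W := (V2.mem_const a).2 haA
  have hca0 : ca ≠ 0 := (map_ne_zero_iff _ (algebraMap Qb (FK N)).injective).2 ha
  have ht00 : t0 ≠ 0 := ((vs_val_eq_one_iff V2.W).1 ht0).1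
  refine ⟨y + ca * s * (1 - y), ?_, ?_⟩
  · -- `g - 1 = (y - 1) (1 - a s)`
    have e : y + ca * s * (1 - y) - 1 = (y - 1) * (1 - ca * s) := by ring
    show V1.W.valuation (y + ca * s * (1 - y) - 1) < 1
    rw [e, map_mul]
    have h1 : V1.W.valuation (1 - ca * s) ≤ 1 :=
      (V1.W.valuation_le_one_iff _).2 (sub_mem (one_mem _) (mul_mem hca1 hs1))
    calc V1.W.valuation (y - 1) * V1.W.valuation (1 - ca * s)
        ≤ V1.W.valuation (y - 1) * 1 := by gcongr
      _ = V1.W.valuation (y - 1) := mul_one _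
      _ < 1 := hy1
  · -- `g - t = y (1 - a s) + a (s - t₀)`
    have e : (y + ca * s * (1 - y)) / (ca * t0) - 1 =
        (y * (1 - ca * s) + ca * (s - t0)) / (ca * t0) := by
      field_simp
      ring
    show V2.W.valuation ((y + ca * s * (1 - y)) / (ca * t0) - 1) < 1
    have hden : V2.W.valuation (ca * t0) = V2.W.valuation ca := by
      rw [map_mul, ht0, mul_one]
    have hpos : 0 < V2.W.valuation ca := zero_lt_iff.2 ((Valuation.ne_zero_iff _).2 hca0)
    rw [e, map_div₀, hden, div_lt_one₀ hpos]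
    refine Valuation.map_add_lt _ ?_ ?_
    · rw [map_mul]
      have h1 : V2.W.valuation (1 - ca * s) ≤ 1 :=
        (V2.W.valuation_le_one_iff _).2 (sub_mem (one_mem _) (mul_mem hca2 hs2))
      calc V2.W.valuation y * V2.W.valuation (1 - ca * s)
          ≤ V2.W.valuation y * 1 := by gcongr
        _ = V2.W.valuation y := mul_one _
        _ < V2.W.valuation ca := hy2
    · rw [map_mul]
      calc V2.W.valuation ca * V2.W.valuation (s - t0)
          < V2.W.valuation ca * 1 := mul_lt_mul_of_pos_left hs4 hpos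
        _ = V2.W.valuation ca := mul_one _

/-- **two-valuation approximation with constants**: for every `t ≠ 0` there is `g` which is a
principal unit for `w₁` and such that `g / t` is a principal unit for `w₂`. -/
theorem exists_isP_isP (h12 : ¬ V1.W ≤ V2.W) (h21 : ¬ V2.W ≤ V1.W)
    (harch : ∀ x y : Qb, A.valuation x < 1 → y ≠ 0 →
      ∃ n : ℕ, A.valuation x ^ n ≤ A.valuation y)
    {t : FK N} (ht : t ≠ 0) :
    ∃ g : FK N, IsP V1.W g ∧ IsP V2.W (g / t) := by
  obtain ⟨c, hc0, hc1, hc2⟩ := V2.unram t ht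
  have hc' : algebraMap Qb (FK N) c ≠ 0 :=
    (map_ne_zero_iff _ (algebraMap Qb (FK N)).injective).2 hc0
  have hct : V2.W.valuation (algebraMap Qb (FK N) c * t) = 1 :=
    (vs_val_eq_one_iff V2.W).2 ⟨mul_ne_zero hc' ht, hc1, hc2⟩
  rcases A.mem_or_inv_mem c with hcA | hcA
  · -- `t⁻¹ = c · (c t)⁻¹`
    have ht0 : V2.W.valuation (algebraMap Qb (FK N) c * t)⁻¹ = 1 := by
      rw [map_inv₀, hct, inv_one]
    obtain ⟨g, hg1, hg2⟩ := exists_isP_isP_aux V1 V2 h12 h21 harch hc0 hcA ht0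
    refine ⟨g⁻¹, hg1.inv, ?_⟩
    have e : g⁻¹ / t = (g / (algebraMap Qb (FK N) c * (algebraMap Qb (FK N) c * t)⁻¹))⁻¹ := by
      field_simp
    rw [e]
    exact hg2.inv
  · -- `t = c⁻¹ · (c t)`
    obtain ⟨g, hg1, hg2⟩ := exists_isP_isP_aux V1 V2 h12 h21 harch (inv_ne_zero hc0) hcA hct
    refine ⟨g, hg1, ?_⟩
    have e : algebraMap Qb (FK N) c⁻¹ * (algebraMap Qb (FK N) c * t) = t := by
      rw [map_inv₀, ← mul_assoc, inv_mul_cancel₀ hc', one_mul]
    rwa [e] at hg2

end Approx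

end Fermat.Agent.GB.B10.Phi2.Approx2
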