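/-
GATE-B / B10' [PHI2] (helper69), file 2: **`ker r₁ ∩ ker r₂ = M⁰`** on `Kum_m(F_N)`, `A ∣ q ∥ N`,
EVERY modulus `m ≠ 0` (in particular `m = p ^ k` with `q = p`).

A class having one Kummer generator with constant reduction for `w₁` and ANOTHER one with constant
reduction for `w₂ = w₁ ∘ W_q` has a SINGLE generator good for both (`goodUnitsMod`), by the
two-valuation approximation `Approx2.exists_isP_isP`; hence it lies in `GS/F/Modular.M0mod`.

* `isPrin_iff_isP`, `isCPrin_iff`, `isCPrin_wAut_iff` : dictionary `IsCPrin` ↔ principal units;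
* `exists_good_rep` : `x ∈ kerRed ∩ kerRed₂ ⟹ x = [u]`, `u ∈ goodUnitsMod N A h m`;
* `kummerEquivFK_mem_M0mod` : `x ∈ kerRed ∩ kerRed₂ ⟹ kummerEquivFK x ∈ M0mod N A h m`.
-/
import Fermat.Agent.GB.B10.Phi2.Approx2
import Fermat.Agent.GK.UqKroneckerU
import Fermat.Agent.GK.SS.GalValInst
import Fermat.Agent.GK.AL.SecondValNe
import Fermat.Agent.GH.Inst.Arch
import Fermat.Agent.GS.F.Modular

set_option autoImplicit false

noncomputable section

namespace Fermat.Agent.GB.B10.Phi2.Merge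

open AlgebraicCurve ModularCurve
open Fermat.Agent.GJ.KumGroup Fermat.Agent.GJ.Kum.KumType Fermat.Agent.GK.SS Fermat.Agent.GK.AL
open Fermat.Agent.GK.UqKronecker Fermat.Agent.GJ.J1.Val Fermat.Agent.GB.B10.Phi2.Approx2
open Fermat.Agent.GS.F Fermat.Agent.GH.KummerEquivariant Fermat.Agent.GH.KummerPic
open Fermat.Agent.GH.TorsionCount

/-- `ℚ̄`. -/
local notation "Qb" => AlgebraicClosure ℚ

/-! ### valuation subrings: `< 1` through a comap -/

section VS

variable {E E' : Type*} [Field E] [Field E']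

theorem val_lt_one_iff_inv_not_mem (B : ValuationSubring E) {x : E} (hx : x ≠ 0) :
    B.valuation x < 1 ↔ x⁻¹ ∉ B := by
  rw [← B.valuation_le_one_iff, map_inv₀, not_le,
    one_lt_inv₀ (zero_lt_iff.2 ((Valuation.ne_zero_iff _).2 hx))]

theorem val_comap_lt_one_iff (B : ValuationSubring E') (f : E →+* E') (x : E) :
    (B.comap f).valuation x < 1 ↔ B.valuation (f x) < 1 := by
  by_cases hx : x = 0
  · rw [hx, map_zero, map_zero, map_zero]
    exact ⟨fun _ => zero_lt_one, fun _ => zero_lt_one⟩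
  · have hfx : f x ≠ 0 := (map_ne_zero_iff f f.injective).2 hx
    rw [val_lt_one_iff_inv_not_mem _ hx, val_lt_one_iff_inv_not_mem _ hfx,
      ValuationSubring.mem_comap, map_inv₀]

end VS

/-! ### dictionary -/

section Dict

variable {N : ℕ} [NeZero N] {A : ValuationSubring Qb}

theorem isPrin_iff_isP (z : FK N) :
    IsPrin (hasGaussFrac_bar N A) z ↔ IsP (galVal1 N A).W z := by
  constructor
  · rintro ⟨hz, h1⟩
    have hsub : z - 1 ∈ Rw A (modularFunctionFieldBar N) (hasGaussFrac_bar N A) :=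
      sub_mem hz (one_mem _)
    have h0 : redL A (modularFunctionFieldBar N) (hasGaussFrac_bar N A) ⟨z - 1, hsub⟩ = 0 := by
      have e : (⟨z - 1, hsub⟩ : Rw A (modularFunctionFieldBar N) (hasGaussFrac_bar N A)) =
          ⟨z, hz⟩ - 1 := rfl
      rw [e, map_sub, h1, map_one, sub_self]
    rw [redL_eq_zero_iff] at h0
    exact (ValuationSubring.valuation_lt_one_iff _ _).1 h0
  · intro h
    have hz : z ∈ Rw A (modularFunctionFieldBar N) (hasGaussFrac_bar N A) := h.mem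
    refine ⟨hz, ?_⟩
    have hsub : z - 1 ∈ Rw A (modularFunctionFieldBar N) (hasGaussFrac_bar N A) :=
      sub_mem hz (one_mem _)
    have h0 : redL A (modularFunctionFieldBar N) (hasGaussFrac_bar N A) ⟨z - 1, hsub⟩ = 0 := by
      rw [redL_eq_zero_iff]
      exact (ValuationSubring.valuation_lt_one_iff _ ⟨z - 1, hsub⟩).2 h
    have e : (⟨z - 1, hsub⟩ : Rw A (modularFunctionFieldBar N) (hasGaussFrac_bar N A)) =
        ⟨z, hz⟩ - 1 := rfl
    rw [e, map_sub, map_one, sub_eq_zero] at h0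
    exact h0

theorem isCPrin_iff (z : FK N) :
    IsCPrin (hasGaussFrac_bar N A) z ↔
      ∃ c : Qb, c ≠ 0 ∧ IsP (galVal1 N A).W (z / algebraMap Qb (FK N) c) := by
  constructor
  · rintro ⟨c, hc, h⟩
    exact ⟨c, hc, (isPrin_iff_isP _).1 h⟩
  · rintro ⟨c, hc, h⟩
    exact ⟨c, hc, (isPrin_iff_isP _).2 h⟩

variable {q : ℕ} (h : ExactDvd q N)

theorem isP_galVal2_iff (z : FK N) :
    IsP (galVal2 N A h).W z ↔ IsP (galVal1 N A).W (wAut h z) := by
  show (galVal2 N A h).W.valuation (z - 1) < 1 ↔ (galVal1 N A).W.valuation (wAut h z - 1) < 1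
  have e : wAut h z - 1 = wAut h (z - 1) := by rw [map_sub, map_one]
  rw [e]
  exact val_comap_lt_one_iff (galVal1 N A).W
    (((wAut h : FK N ≃ₐ[Qb] FK N) : FK N ≃+* FK N) : FK N →+* FK N) (z - 1)

theorem isCPrin_wAut_iff (z : FK N) :
    IsCPrin (hasGaussFrac_bar N A) (((wAut h : FK N ≃ₐ[Qb] FK N) : FK N ≃+* FK N) z) ↔
      ∃ c : Qb, c ≠ 0 ∧ IsP (galVal2 N A h).W (z / algebraMap Qb (FK N) c) := by
  rw [isCPrin_iff]
  refine exists_congr fun c => and_congr_right fun _ => ?_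
  rw [isP_galVal2_iff]
  have e : wAut h (z / algebraMap Qb (FK N) c) =
      ((wAut h : FK N ≃ₐ[Qb] FK N) : FK N ≃+* FK N) z / algebraMap Qb (FK N) c := by
    rw [map_div₀, AlgEquiv.commutes]
    rfl
  rw [e]

end Dict

/-! ### merging the two generators -/

section Merge

variable {N : ℕ} [NeZero N] {A : ValuationSubring Qb} {q : ℕ} (h : ExactDvd q N)

omit [NeZero N] in
theorem isCstUnit_of_isP {V : GalVal N A} {y : FK N} (hy : IsP V.W y) : V.IsCstUnit y :=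
  ⟨1, map_one _, by rw [map_one]; exact hy⟩

include h in
/-- **one generator good for both valuations.** -/
theorem exists_good_rep (hA : A.LiesOverPrime q) {m : ℕ} (hm : m ≠ 0)
    {x : Additive (Kum Qb (FK N) m)} (h1 : x ∈ kerRed N A m) (h2 : x ∈ kerRed₂ h A m) :
    ∃ u : pDivUnits Qb (FK N) m, (u : (FK N)ˣ) ∈ goodUnitsMod N A h m ∧
      Additive.ofMul (Kum.mk u) = x := by
  obtain ⟨u1, hu1, rfl⟩ := mem_kerRed.mp h1
  obtain ⟨u2, hu2, h12⟩ := mem_kerRedW.mp h2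
  obtain ⟨c1, hc1, hp1⟩ := (isCPrin_iff _).1 hu1
  obtain ⟨c2, hc2, hp2⟩ := (isCPrin_wAut_iff h _).1 hu2
  have hmk : Kum.mk u1 = Kum.mk u2 := (Additive.ofMul.injective h12).symm
  obtain ⟨w, hw⟩ := Kum.mk_eq_mk_iff.1 hmk
  have hmpos : 0 < m := Nat.pos_of_ne_zero hm
  obtain ⟨a, ha⟩ := IsAlgClosed.exists_pow_nat_eq (c1 / c2) hmpos
  obtain ⟨e, he⟩ := IsAlgClosed.exists_pow_nat_eq c1 hmpos
  have ha0 : a ≠ 0 := by
    intro h0
    rw [h0, zero_pow hm] at ha
    exact div_ne_zero hc1 hc2 ha.symm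
  have he0 : e ≠ 0 := by
    intro h0
    rw [h0, zero_pow hm] at he
    exact hc1 he.symm
  have hca : algebraMap Qb (FK N) a ≠ 0 :=
    (map_ne_zero_iff _ (algebraMap Qb (FK N)).injective).2 ha0
  have hce : algebraMap Qb (FK N) e ≠ 0 :=
    (map_ne_zero_iff _ (algebraMap Qb (FK N)).injective).2 he0
  have hcc1 : algebraMap Qb (FK N) c1 ≠ 0 :=
    (map_ne_zero_iff _ (algebraMap Qb (FK N)).injective).2 hc1
  have hcc2 : algebraMap Qb (FK N) c2 ≠ 0 :=
    (map_ne_zero_iff _ (algebraMap Qb (FK N)).injective).2 hc2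
  have ht : (w : FK N) * algebraMap Qb (FK N) a ≠ 0 := mul_ne_zero w.ne_zero hca
  have harch := Fermat.Agent.GH.Inst.harch A h.prime hA
  obtain ⟨g, hg1, hg2⟩ := exists_isP_isP (galVal1 N A) (galVal2 N A h)
    (not_Rw1_le_Rw2 N A h hA) (not_Rw2_le_Rw1 N A h hA) harch ht
  have hg0 : g ≠ 0 := hg1.ne_zero
  -- the new generator `u1 * (g / e) ^ m`
  set r : (FK N)ˣ := Units.mk0 (g / algebraMap Qb (FK N) e) (div_ne_zero hg0 hce) with hr
  have hv : (u1 : (FK N)ˣ) * r ^ m ∈ pDivUnits Qb (FK N) m :=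
    mul_mem u1.2 (pow_mem_pDivUnits Qb (FK N) m r)
  have hU2 : ((u2 : (FK N)ˣ) : FK N) = ((u1 : (FK N)ˣ) : FK N) * (w : FK N) ^ m := by
    rw [hw, Units.val_mul, Units.val_pow_eq_pow_val]
  have hcoe : (((u1 : (FK N)ˣ) * r ^ m : (FK N)ˣ) : FK N) =
      ((u1 : (FK N)ˣ) : FK N) * (g / algebraMap Qb (FK N) e) ^ m := by
    rw [Units.val_mul, Units.val_pow_eq_pow_val, hr, Units.val_mk0]
  have hec : algebraMap Qb (FK N) e ^ m = algebraMap Qb (FK N) c1 := by
    rw [← map_pow, he]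
  have hac : algebraMap Qb (FK N) a ^ m * algebraMap Qb (FK N) c2 = algebraMap Qb (FK N) c1 := by
    rw [← map_pow, ha, ← map_mul, div_mul_cancel₀ _ hc2]
  refine ⟨⟨(u1 : (FK N)ˣ) * r ^ m, hv⟩, ⟨hv, ?_, ?_⟩, ?_⟩
  · -- `w₁`: `(u1 / c1) * g ^ m`
    apply isCstUnit_of_isP
    have e1 : (((u1 : (FK N)ˣ) * r ^ m : (FK N)ˣ) : FK N) =
        ((u1 : (FK N)ˣ) : FK N) / algebraMap Qb (FK N) c1 * g ^ m := by
      rw [hcoe, div_pow, hec]
      field_simp
    rw [e1]
    exact hp1.mul (hg1.pow m)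
  · -- `w₂`: `(u2 / c2) * (g / (w a)) ^ m`
    apply isCstUnit_of_isP
    have e2 : (((u1 : (FK N)ˣ) * r ^ m : (FK N)ˣ) : FK N) =
        ((u2 : (FK N)ˣ) : FK N) / algebraMap Qb (FK N) c2 *
          (g / ((w : FK N) * algebraMap Qb (FK N) a)) ^ m := by
      rw [hcoe, hU2, div_pow, div_pow, hec, mul_pow, ← hac]
      have hw0 : (w : FK N) ^ m ≠ 0 := pow_ne_zero _ w.ne_zero
      have ha0' : algebraMap Qb (FK N) a ^ m ≠ 0 := pow_ne_zero _ hca
      field_simp
    rw [e2]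
    exact hp2.mul (hg2.pow m)
  · -- same class
    apply congrArg Additive.ofMul
    exact (Kum.mk_eq_mk_iff.2 ⟨r, rfl⟩).symm

include h in
/-- **`ker r₁ ∩ ker r₂ ⊆ M⁰_m`** in `J₀(N)` language. -/
theorem kummerEquivFK_mem_M0mod (hA : A.LiesOverPrime q) {m : ℕ} [NeZero m]
    {x : Additive (Kum Qb (FK N) m)} (h1 : x ∈ kerRed N A m) (h2 : x ∈ kerRed₂ h A m) :
    ((kummerEquivFK N m x : Pic0.torsion Qb (FK N) m) : JZero N) ∈ M0mod N A h m := by
  have := hasPrincipalDivisors_FK N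
  obtain ⟨u, hu, rfl⟩ := exists_good_rep h hA (NeZero.ne m) h1 h2
  rw [coe_kummerEquivFK_mk]
  exact mem_M0.2 ⟨u, hu, kum0_apply m u⟩

include h in
/-- the same on the carrier `↥(Submodule.torsionBy ℤ (JZero N) ((p : ℤ) ^ k))` of the frozen
statements (`kumTorsionBy`), `m = p ^ k`. -/
theorem kumTorsionBy_mem_M0mod (hA : A.LiesOverPrime q) {p : ℕ} [NeZero p] (k : ℕ)
    {x : Additive (Kum Qb (FK N) (p ^ k))} (h1 : x ∈ kerRed N A (p ^ k))
    (h2 : x ∈ kerRed₂ h A (p ^ k)) :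
    ((kumTorsionBy N p k x : ↥(Submodule.torsionBy ℤ (JZero N) ((p : ℤ) ^ k))) : JZero N) ∈
      M0mod N A h (p ^ k) := by
  rw [coe_kumTorsionBy]
  exact kummerEquivFK_mem_M0mod h hA h1 h2

include h in
/-- the approximation in `IsPrin` vocabulary: for every constant `d ≠ 0` a unit `t` of `F_N` which
is `w₁`-principal and such that `W_q t · d` is `w₁`-principal (i.e. `t · d` is `w₂`-principal). -/
theorem exists_prin_twist (hA : A.LiesOverPrime q) {d : Qb} (hd : d ≠ 0) :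
    ∃ t : (FK N)ˣ, IsPrin (hasGaussFrac_bar N A) (t : FK N) ∧
      IsPrin (hasGaussFrac_bar N A) (wAut h (t : FK N) * algebraMap Qb (FK N) d) := by
  have hcd : algebraMap Qb (FK N) d⁻¹ ≠ 0 :=
    (map_ne_zero_iff _ (algebraMap Qb (FK N)).injective).2 (inv_ne_zero hd)
  obtain ⟨g, hg1, hg2⟩ := exists_isP_isP (galVal1 N A) (galVal2 N A h)
    (not_Rw1_le_Rw2 N A h hA) (not_Rw2_le_Rw1 N A h hA)
    (Fermat.Agent.GH.Inst.harch A h.prime hA) hcd
  refine ⟨Units.mk0 g hg1.ne_zero, (isPrin_iff_isP _).2 hg1, (isPrin_iff_isP _).2 ?_⟩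
  rw [isP_galVal2_iff] at hg2
  have e : wAut h (g / algebraMap Qb (FK N) d⁻¹) =
      wAut h ((Units.mk0 g hg1.ne_zero : (FK N)ˣ) : FK N) * algebraMap Qb (FK N) d := by
    rw [Units.val_mk0, map_div₀, AlgEquiv.commutes, map_inv₀, div_inv_eq_mul]
  rwa [e] at hg2

end Merge

end Fermat.Agent.GB.B10.Phi2.Merge
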