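/-
GATE-B / B10' (helper69): **N1 + N2 combined** — `φ² y - y ∈ M⁰_m` for `y` in the `q`-new part of
`Kum_m(F_{N'q}) = J₀(N'q)[m]`, EVERY modulus `m ≠ 0` (in particular `m = p ^ k`, `q = p`) and every
Frobenius lift `φ = τ` at `A ∣ q`.  (`FrobSqKer` of helper32 + `Merge.kummerEquivFK_mem_M0mod`.)

* `frobSq_sub_mem_M0mod`           : `JZero` language via `kummerEquivFK`;
* `frobSq_sub_mem_M0mod_torsionBy` : on `↥(Submodule.torsionBy ℤ (JZero N) ((p:ℤ)^k))` via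
  `kumTorsionBy`;
* `frobSq_kumHecke_aeval_mem_M0mod` : the old-killer form (binders of `KillerDies` verbatim).
-/
import Fermat.Agent.GB.B10.Phi2.Merge
import Fermat.Agent.GB.B10.FrobSqKer

set_option autoImplicit false
set_option linter.unusedSectionVars false

noncomputable section

namespace Fermat.Agent.GB.B10.Phi2.FrobSqM0

open AlgebraicCurve ModularCurve
open Fermat.Agent.GJ.KumGroup Fermat.Agent.GJ.Kum.KumType Fermat.Agent.GK.AL
open Fermat.Agent.GK.UqKronecker Fermat.Agent.GK.UTr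
open Fermat.Agent.GS.F Fermat.Agent.GH.KummerEquivariant Fermat.Agent.GH.TorsionCount
open Fermat.Agent.GB.B10.Phi2.Merge Fermat.Agent.GB.B10.FrobSqKer

/-- `ℚ̄`. -/
local notation "Qb" => AlgebraicClosure ℚ
local notation "GQ" => (AlgebraicClosure ℚ ≃ₐ[ℚ] AlgebraicClosure ℚ)

variable {N' q : ℕ} [NeZero N'] [Fact q.Prime] {h : ExactDvd q (N' * q)}
  {A : ValuationSubring Qb}

/-- **`φ² y - y ∈ M⁰_m`** for `y` in the `q`-new part. -/
theorem frobSq_sub_mem_M0mod {m : ℕ} [NeZero m] (hA : A.LiesOverPrime q) {τ : GQ}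
    (hτ : A.IsFrobeniusAt τ q) {y : Additive (Kum Qb (FK (N' * q)) m)} (hy : IsNew h m y) :
    ((kummerEquivFK (N' * q) m (gal (N' * q) m τ (gal (N' * q) m τ y) - y) :
      Pic0.torsion Qb (FK (N' * q)) m) : JZero (N' * q)) ∈ M0mod (N' * q) A h m :=
  kummerEquivFK_mem_M0mod h hA (frobSq_sub_mem_kerRed hA hτ hy) (frobSq_sub_mem_kerRed₂ hA hτ hy)

/-- the same on `↥(Submodule.torsionBy ℤ (JZero N) ((p : ℤ) ^ k))`, in the `σ • ·` spelling of the
frozen statements: for `y` new, `x := kumTorsionBy y`, **`τ • τ • x - x ∈ M⁰_{p^k}`**. -/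
theorem frobSq_sub_mem_M0mod_torsionBy {p : ℕ} [NeZero p] (k : ℕ) (hA : A.LiesOverPrime q) {τ : GQ}
    (hτ : A.IsFrobeniusAt τ q) {y : Additive (Kum Qb (FK (N' * q)) (p ^ k))}
    (hy : IsNew h (p ^ k) y) :
    τ • τ • ((kumTorsionBy (N' * q) p k y :
        ↥(Submodule.torsionBy ℤ (JZero (N' * q)) ((p : ℤ) ^ k))) : JZero (N' * q)) -
      ((kumTorsionBy (N' * q) p k y :
        ↥(Submodule.torsionBy ℤ (JZero (N' * q)) ((p : ℤ) ^ k))) : JZero (N' * q)) ∈
      M0mod (N' * q) A h (p ^ k) := by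
  have h1 := kumTorsionBy_mem_M0mod h hA k (frobSq_sub_mem_kerRed hA hτ hy)
    (frobSq_sub_mem_kerRed₂ hA hτ hy)
  rw [map_sub, Submodule.coe_sub, coe_kumTorsionBy_gal, coe_kumTorsionBy_gal] at h1
  exact h1

end Fermat.Agent.GB.B10.Phi2.FrobSqM0
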